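import Mathlib

/-!
# T13 / GL-1: the fixed field of an open normal subgroup of `Gal(ℚ̄/ℚ)`

For an open subgroup `H` of `GQ = Gal(ℚ̄/ℚ)`, the fixed field `L = ℚ̄^H` is finite over `ℚ`,
`L.fixingSubgroup = H`; if `H` is normal, `L/ℚ` is Galois and `σ ∈ H ↔ σ|_L = 1`.
Everything is a direct consequence of Mathlib's infinite Galois theory.
-/

set_option autoImplicit false

namespace Fermat.Agent.S13.GL.FixedField

open IntermediateField

/-- `ℚ̄`. -/
abbrev Qb : Type := AlgebraicClosure ℚ
/-- The absolute Galois group of `ℚ`. -/
abbrev GQ : Type := Qb ≃ₐ[ℚ] Qb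

theorem ratAlgebra_eq :
    (DivisionRing.toRatAlgebra : Algebra ℚ Qb) = AlgebraicClosure.instAlgebra ℚ :=
  Subsingleton.elim _ _

/-- `ℚ̄/ℚ` is Galois (for the algebra structure used by the prelude). -/
theorem isGalois_Qb : IsGalois ℚ Qb := by
  rw [ratAlgebra_eq]
  infer_instance

attribute [local instance] isGalois_Qb

variable (H : Subgroup GQ)

/-- An open subgroup, bundled as a closed subgroup. -/
def closedOfOpen (hopen : IsOpen (H : Set GQ)) : ClosedSubgroup GQ :=
  ⟨H, H.isClosed_of_isOpen hopen⟩

/-- `Gal(ℚ̄/ℚ̄^H) = H` for an open subgroup `H`. -/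
theorem fixingSubgroup_fixedField (hopen : IsOpen (H : Set GQ)) :
    (fixedField H).fixingSubgroup = H :=
  InfiniteGalois.fixingSubgroup_fixedField (closedOfOpen H hopen)

/-- `σ ∈ H` iff `σ` fixes the fixed field of `H` pointwise. -/
theorem mem_iff_forall_fixed (hopen : IsOpen (H : Set GQ)) (σ : GQ) :
    σ ∈ H ↔ ∀ x ∈ fixedField H, σ x = x := by
  conv_lhs => rw [← fixingSubgroup_fixedField H hopen]
  rw [IntermediateField.mem_fixingSubgroup_iff]

/-- The fixed field of an open subgroup is finite over `ℚ`. -/
theorem finiteDimensional_fixedField (hopen : IsOpen (H : Set GQ)) :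
    FiniteDimensional ℚ (fixedField H) := by
  rw [← InfiniteGalois.isOpen_iff_finite, fixingSubgroup_fixedField H hopen]
  exact hopen

/-- The fixed field of an open subgroup is a number field. -/
theorem numberField_fixedField (hopen : IsOpen (H : Set GQ)) :
    NumberField (fixedField H) :=
  { to_charZero := inferInstance
    to_finiteDimensional := finiteDimensional_fixedField H hopen }

/-- The fixed field of an open normal subgroup is Galois over `ℚ`. -/
theorem isGalois_fixedField (hn : H.Normal) (hopen : IsOpen (H : Set GQ)) :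
    IsGalois ℚ (fixedField H) := by
  have h : @IsGalois ℚ _ (fixedField H) _ (fixedField H).algebra' := by
    rw [← InfiniteGalois.normal_iff_isGalois, fixingSubgroup_fixedField H hopen]
    exact hn
  convert h
  exact Subsingleton.elim _ _

/-- The fixed field of an open normal subgroup is normal over `ℚ`. -/
theorem normal_fixedField (hn : H.Normal) (hopen : IsOpen (H : Set GQ)) :
    Normal ℚ (fixedField H) :=
  haveI := isGalois_fixedField H hn hopen
  inferInstance

/-- `σ ∈ H` iff the restriction of `σ` to the fixed field of `H` is trivial. -/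
theorem mem_iff_restrictNormalHom_eq_one (hopen : IsOpen (H : Set GQ))
    [Normal ℚ (fixedField H)] (σ : GQ) :
    σ ∈ H ↔ AlgEquiv.restrictNormalHom (fixedField H) σ = 1 := by
  rw [mem_iff_forall_fixed H hopen]
  constructor
  · intro h
    ext x
    have := AlgEquiv.restrictNormal_commutes σ (fixedField H) x
    rw [AlgEquiv.one_apply]
    exact this.trans (h x x.2)
  · intro h x hx
    have := AlgEquiv.restrictNormal_commutes σ (fixedField H) ⟨x, hx⟩
    have h1 : AlgEquiv.restrictNormal σ (fixedField H) ⟨x, hx⟩ = ⟨x, hx⟩ := by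
      have := DFunLike.congr_fun h ⟨x, hx⟩
      exact this
    rw [h1] at this
    exact this.symm

/-- Restriction to the fixed field is surjective. -/
theorem restrictNormalHom_surjective [Normal ℚ (fixedField H)] :
    Function.Surjective (AlgEquiv.restrictNormalHom (F := ℚ) (K₁ := Qb) (fixedField H)) :=
  AlgEquiv.restrictNormalHom_surjective Qb

/-- The restriction of `σ` to the fixed field, evaluated. -/
theorem restrictNormalHom_apply [Normal ℚ (fixedField H)] (σ : GQ) (x : fixedField H) :
    ((AlgEquiv.restrictNormalHom (fixedField H) σ x : fixedField H) : Qb) = σ (x : Qb) :=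
  AlgEquiv.restrictNormal_commutes σ (fixedField H) x

/-- If the fixed field of the open subgroup `H` is `ℚ` then `H = ⊤`. -/
theorem eq_top_of_fixedField_eq_bot (hopen : IsOpen (H : Set GQ)) (h : fixedField H = ⊥) :
    H = ⊤ := by
  rw [← fixingSubgroup_fixedField H hopen, h]
  exact IntermediateField.fixingSubgroup_bot

/-- If the fixed field of the open subgroup `H` has degree `1` over `ℚ` then `H = ⊤`. -/
theorem eq_top_of_finrank_eq_one (hopen : IsOpen (H : Set GQ))
    (h : Module.finrank ℚ (fixedField H) = 1) : H = ⊤ :=
  eq_top_of_fixedField_eq_bot H hopen (IntermediateField.finrank_eq_one_iff.mp h)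

/-- If `H ≠ ⊤` is open then the fixed field has degree `> 1`. -/
theorem one_lt_finrank_of_ne_top (hopen : IsOpen (H : Set GQ)) (hH : H ≠ ⊤) :
    1 < Module.finrank ℚ (fixedField H) := by
  have := finiteDimensional_fixedField H hopen
  have hpos : 0 < Module.finrank ℚ (fixedField H) := Module.finrank_pos
  have hne : Module.finrank ℚ (fixedField H) ≠ 1 := fun h => hH (eq_top_of_finrank_eq_one H hopen h)
  omega

/-- **Minkowski** (Mathlib `NumberField.exists_not_isUnramifiedAt_int_of_isGalois`) for the fixed
field of an open normal subgroup `H ≠ ⊤`: some rational prime `p` is ramified at EVERY prime of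
the ring of integers of `ℚ̄^H` above it. -/
theorem exists_prime_forall_not_isUnramifiedAt (hn : H.Normal) (hopen : IsOpen (H : Set GQ))
    (hH : H ≠ ⊤) :
    haveI := numberField_fixedField H hopen
    ∃ p : ℕ, p.Prime ∧ ∀ (P : Ideal (NumberField.RingOfIntegers (fixedField H))) (_ : P.IsPrime),
      ↑p ∈ P → ¬ Algebra.IsUnramifiedAt ℤ P := by
  have := numberField_fixedField H hopen
  have := isGalois_fixedField H hn hopen
  exact NumberField.exists_not_isUnramifiedAt_int_of_isGalois (one_lt_finrank_of_ne_top H hopen hH)

end Fermat.Agent.S13.GL.FixedField
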